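/-
S33 programme, WIRING (helper68), abstract core (Mathlib only).

Setting: `T` a reduced commutative ring, `V` a free `T`-module, `ρ : G →* End_T V`, `ε : G → T`,
`I ≤ G`.  For `σ σ' τ` put `c(σ,σ',τ) := (ρ τ - ε τ)(ρ σ - 1)(ρ σ' - 1)` (`cubicOp`) and
`q(σ,τ) := (ρ τ - ε τ)(ρ σ - 1)` (`quadOp`).

* `eq_zero_of_forall_mem_minimalPrimes_smul_top` : `⋂_𝔭 𝔭V = 0` over the minimal primes (step (6)).
* `mem_smul_top_of_smul_eq_zero`                 : `s ∉ 𝔭`, `s • x = 0 ⇒ x ∈ 𝔭V`.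
* `cubic_mod_of_new`   (step (4)): if `Ψ : V → (T ⊗ M)^r` is `T`-linear, injective and equivariant,
  the cubic identity holds on `K ≤ M`, and `Ψ(sV) ⊆ (T ⊗ K)^r` with `s ∉ 𝔭`, then `c(V) ⊆ 𝔭V`.
* `cubic_mod_of_quad`  (step (5), last line): `q(V) ⊆ 𝔭V ⇒ c(V) ⊆ 𝔭V`.
* `cubicOn_of_dichotomy` (steps (4)+(5)+(6)): NEW or OLD at every minimal prime ⇒ `c = 0` on `I`.
-/
import Mathlib

set_option autoImplicit false

open TensorProduct

noncomputable section

namespace Fermat.Agent.S33P.Main68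

/-! ### Free modules over a reduced ring -/

section Free

variable {T : Type*} [CommRing T] {V : Type*} [AddCommGroup V] [Module T V]

/-- a linear functional maps `𝔞V` into `𝔞`. -/
theorem apply_mem_of_mem_smul_top (𝔞 : Ideal T) (f : V →ₗ[T] T) {x : V}
    (hx : x ∈ 𝔞 • (⊤ : Submodule T V)) : f x ∈ 𝔞 := by
  refine Submodule.smul_induction_on hx ?_ ?_
  · intro a ha v _
    rw [map_smul, smul_eq_mul]
    exact Ideal.mul_mem_right _ _ ha
  · intro x y hx hy
    rw [map_add]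
    exact Ideal.add_mem _ hx hy

variable [Module.Free T V]

/-- an element of a free module all of whose coordinates lie in `𝔞` lies in `𝔞V`. -/
theorem mem_smul_top_of_repr_mem (𝔞 : Ideal T) {x : V}
    (h : ∀ j, (Module.Free.chooseBasis T V).repr x j ∈ 𝔞) : x ∈ 𝔞 • (⊤ : Submodule T V) := by
  set b := Module.Free.chooseBasis T V
  rw [← b.linearCombination_repr x, Finsupp.linearCombination_apply]
  refine Submodule.sum_mem _ fun j _ => ?_
  exact Submodule.smul_mem_smul (h j) Submodule.mem_top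

/-- `s ∉ 𝔭` prime and `s • x = 0` imply `x ∈ 𝔭V` (`V` free). -/
theorem mem_smul_top_of_smul_eq_zero {𝔭 : Ideal T} [𝔭.IsPrime] {s : T} (hs : s ∉ 𝔭) {x : V}
    (h : s • x = 0) : x ∈ 𝔭 • (⊤ : Submodule T V) := by
  apply mem_smul_top_of_repr_mem
  intro j
  have h1 : s * (Module.Free.chooseBasis T V).repr x j = 0 := by
    have := congrArg (fun y => (Module.Free.chooseBasis T V).repr y j) h
    simpa using this
  have h2 : s * (Module.Free.chooseBasis T V).repr x j ∈ 𝔭 := by rw [h1]; exact 𝔭.zero_mem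
  exact (Ideal.IsPrime.mem_or_mem ‹_› h2).resolve_left hs

/-- **Step (6).** In a free module over a reduced ring, `⋂_𝔭 𝔭V = 0`, `𝔭` running over the minimal
primes. -/
theorem eq_zero_of_forall_mem_minimalPrimes_smul_top [IsReduced T] {x : V}
    (h : ∀ 𝔭 ∈ minimalPrimes T, x ∈ 𝔭 • (⊤ : Submodule T V)) : x = 0 := by
  set b := Module.Free.chooseBasis T V
  apply b.repr.injective
  rw [map_zero]
  ext j
  rw [Finsupp.zero_apply]
  have h1 : b.repr x j ∈ sInf (minimalPrimes T) := by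
    rw [Ideal.mem_sInf]
    intro 𝔭 h𝔭
    exact apply_mem_of_mem_smul_top 𝔭 (b.coord j) (h 𝔭 h𝔭)
  have h2 : sInf (minimalPrimes T) = (⊥ : Ideal T) := by
    rw [minimalPrimes, Ideal.sInf_minimalPrimes]
    exact nilradical_eq_zero T
  rw [h2] at h1
  exact h1

end Free

/-! ### The cubic and quadratic operators -/

section Ops

variable {T : Type*} [CommRing T] {V : Type*} [AddCommGroup V] [Module T V]
  {G : Type*} [Group G] (ρ : G →* Module.End T V) (ε : G → T)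

/-- `c(σ,σ',τ) = (ρ τ - ε τ)(ρ σ - 1)(ρ σ' - 1)`. -/
def cubicOp (σ σ' τ : G) : Module.End T V := (ρ τ - ε τ • 1) * (ρ σ - 1) * (ρ σ' - 1)

/-- `q(σ,τ) = (ρ τ - ε τ)(ρ σ - 1)`. -/
def quadOp (σ τ : G) : Module.End T V := (ρ τ - ε τ • 1) * (ρ σ - 1)

theorem cubicOp_apply (σ σ' τ : G) (v : V) :
    cubicOp ρ ε σ σ' τ v = quadOp ρ ε σ τ (ρ σ' v - v) := by
  unfold cubicOp quadOp
  rw [Module.End.mul_apply, LinearMap.sub_apply, Module.End.one_apply]

/-- the cubic identity on a subgroup `I`. -/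
def CubicOn (I : Subgroup G) : Prop :=
  ∀ σ ∈ I, ∀ σ' ∈ I, ∀ τ ∈ I, (ρ τ - ε τ • 1) * (ρ σ - 1) * (ρ σ' - 1) = 0

/-- the quadratic identity modulo `𝔭V` on a subgroup `I` (conclusion of the `p`-old half). -/
def QuadModAt (I : Subgroup G) (𝔭 : Ideal T) : Prop :=
  ∀ σ ∈ I, ∀ τ ∈ I, ∀ v : V, (ρ τ - ε τ • 1) ((ρ σ - 1) v) ∈ 𝔭 • (⊤ : Submodule T V)

/-- the cubic identity modulo `𝔭V` on a subgroup `I`. -/
def CubicModAt (I : Subgroup G) (𝔭 : Ideal T) : Prop :=
  ∀ σ ∈ I, ∀ σ' ∈ I, ∀ τ ∈ I, ∀ v : V,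
    ((ρ τ - ε τ • 1) * (ρ σ - 1) * (ρ σ' - 1)) v ∈ 𝔭 • (⊤ : Submodule T V)

/-- **Step (5), last line.** -/
theorem cubic_mod_of_quad {I : Subgroup G} {𝔭 : Ideal T} (h : QuadModAt ρ ε I 𝔭) :
    CubicModAt ρ ε I 𝔭 := by
  intro σ hσ σ' _ τ hτ v
  rw [Module.End.mul_apply, Module.End.mul_apply]
  exact h σ hσ τ hτ _

end Ops

/-! ### The `p`-new half at a minimal prime -/

section New

variable {R : Type*} [CommRing R] {T : Type*} [CommRing T] [Algebra R T]
  {V : Type*} [AddCommGroup V] [Module T V]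
  {G : Type*} [Group G] (ρ : G →* Module.End T V) (ε : G → T)
  {M : Type*} [AddCommGroup M] [Module R M] (ρM : G →* Module.End R M) (χ : G → R)
  (K : Submodule R M)

/-- the cubic identity for `ρM` on the submodule `K`. -/
def CubicOnSub (I : Subgroup G) : Prop :=
  ∀ σ ∈ I, ∀ σ' ∈ I, ∀ τ ∈ I, ∀ k ∈ K, ((ρM τ - χ τ • 1) * (ρM σ - 1) * (ρM σ' - 1)) k = 0

/-- `Ψ(sV) ⊆ (T ⊗ K)^r` for some `s ∉ 𝔭`: the `p`-new alternative at `𝔭`. -/
def IsNewAt {r : ℕ} (Ψ : V →ₗ[T] (Fin r → T ⊗[R] M)) (𝔭 : Ideal T) : Prop :=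
  ∃ s : T, s ∉ 𝔭 ∧ ∀ (v : V) (i : Fin r), Ψ (s • v) i ∈ LinearMap.range (K.subtype.baseChange T)

variable {ρ ε ρM χ K}

/-- base change of the cubic operator of `ρM` kills `T ⊗ K`. -/
theorem baseChange_cubic_eq_zero {I : Subgroup G} (hK : CubicOnSub ρM χ K I)
    {σ σ' τ : G} (hσ : σ ∈ I) (hσ' : σ' ∈ I) (hτ : τ ∈ I)
    {x : T ⊗[R] M} (hx : x ∈ LinearMap.range (K.subtype.baseChange T)) :
    (((ρM τ - χ τ • 1) * (ρM σ - 1) * (ρM σ' - 1)).baseChange T) x = 0 := by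
  obtain ⟨y, rfl⟩ := hx
  induction y using TensorProduct.induction_on with
  | zero => simp
  | tmul t k =>
    rw [LinearMap.baseChange_tmul, LinearMap.baseChange_tmul, Submodule.subtype_apply,
      hK σ hσ σ' hσ' τ hτ k k.2, TensorProduct.tmul_zero]
  | add a b ha hb => rw [map_add, map_add, ha, hb, add_zero]

/-- **Step (4).** The `p`-new alternative at `𝔭` gives the cubic identity modulo `𝔭V`. -/
theorem cubic_mod_of_new [Module.Free T V] {I : Subgroup G} (hK : CubicOnSub ρM χ K I)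
    (hε : ∀ g, ε g = algebraMap R T (χ g))
    {r : ℕ} (Ψ : V →ₗ[T] (Fin r → T ⊗[R] M)) (hinj : Function.Injective Ψ)
    (heq : ∀ (g : G) (v : V) (i : Fin r), Ψ (ρ g v) i = (ρM g).baseChange T (Ψ v i))
    {𝔭 : Ideal T} [𝔭.IsPrime] (hnew : IsNewAt K Ψ 𝔭) : CubicModAt ρ ε I 𝔭 := by
  obtain ⟨s, hs, hsK⟩ := hnew
  intro σ hσ σ' hσ' τ hτ v
  apply mem_smul_top_of_smul_eq_zero hs
  apply hinj
  rw [map_zero]
  funext i
  rw [Pi.zero_apply]
  -- equivariance for the three factors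
  have e1 : ∀ (g : G) (w : V), Ψ ((ρ g - 1) w) i = ((ρM g - 1).baseChange T) (Ψ w i) := by
    intro g w
    rw [LinearMap.sub_apply, Module.End.one_apply, map_sub, Pi.sub_apply, heq,
      LinearMap.baseChange_sub, LinearMap.sub_apply, Module.End.one_eq_id,
      LinearMap.baseChange_id, LinearMap.id_apply]
  have e2 : ∀ (g : G) (w : V),
      Ψ ((ρ g - ε g • 1) w) i = ((ρM g - χ g • 1).baseChange T) (Ψ w i) := by
    intro g w
    rw [LinearMap.sub_apply, LinearMap.smul_apply, Module.End.one_apply, map_sub, Pi.sub_apply,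
      heq, map_smul, Pi.smul_apply, LinearMap.baseChange_sub, LinearMap.sub_apply,
      LinearMap.baseChange_smul, LinearMap.smul_apply, Module.End.one_eq_id,
      LinearMap.baseChange_id, LinearMap.id_apply, hε, algebraMap_smul]
  have e3 : Ψ (((ρ τ - ε τ • 1) * (ρ σ - 1) * (ρ σ' - 1)) (s • v)) i =
      (((ρM τ - χ τ • 1) * (ρM σ - 1) * (ρM σ' - 1)).baseChange T) (Ψ (s • v) i) := by
    rw [Module.End.mul_apply, Module.End.mul_apply, e2, e1, e1, Module.End.mul_eq_comp,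
      Module.End.mul_eq_comp, LinearMap.baseChange_comp, LinearMap.baseChange_comp,
      LinearMap.comp_apply, LinearMap.comp_apply]
  rw [← map_smul, e3]
  exact baseChange_cubic_eq_zero hK hσ hσ' hτ (hsK v i)

end New

/-! ### Steps (4)+(5)+(6) together -/

section Main

variable {R : Type*} [CommRing R] {T : Type*} [CommRing T] [Algebra R T] [IsReduced T]
  {V : Type*} [AddCommGroup V] [Module T V] [Module.Free T V]
  {G : Type*} [Group G] {ρ : G →* Module.End T V} {ε : G → T}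
  {M : Type*} [AddCommGroup M] [Module R M] {ρM : G →* Module.End R M} {χ : G → R}
  {K : Submodule R M}

/-- **Steps (4)–(6).** If at every minimal prime of the reduced ring `T` either the `p`-new
alternative holds (`Ψ(sV) ⊆ (T ⊗ K)^r`, `s ∉ 𝔭`) or the quadratic identity holds modulo `𝔭V`
(output of the `p`-old half), then the cubic identity holds on `V`. -/
theorem cubicOn_of_dichotomy {I : Subgroup G} (hK : CubicOnSub ρM χ K I)
    (hε : ∀ g, ε g = algebraMap R T (χ g))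
    {r : ℕ} (Ψ : V →ₗ[T] (Fin r → T ⊗[R] M)) (hinj : Function.Injective Ψ)
    (heq : ∀ (g : G) (v : V) (i : Fin r), Ψ (ρ g v) i = (ρM g).baseChange T (Ψ v i))
    (hdich : ∀ 𝔭 ∈ minimalPrimes T, IsNewAt K Ψ 𝔭 ∨ QuadModAt ρ ε I 𝔭) :
    CubicOn ρ ε I := by
  intro σ hσ σ' hσ' τ hτ
  refine LinearMap.ext fun v => ?_
  rw [LinearMap.zero_apply]
  apply eq_zero_of_forall_mem_minimalPrimes_smul_top (T := T)
  intro 𝔭 h𝔭
  have hprime : 𝔭.IsPrime := h𝔭.1.1
  rcases hdich 𝔭 h𝔭 with hnew | hold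
  · exact cubic_mod_of_new hK hε Ψ hinj heq hnew σ hσ σ' hσ' τ hτ v
  · exact cubic_mod_of_quad ρ ε hold σ hσ σ' hσ' τ hτ v

end Main

end Fermat.Agent.S33P.Main68
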