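/-
S33 programme, WIRING (helper68): TOP of the chain (ruling R1 = report 1278, steps (6) + A1 + PLACE).

  frozen S33  ⇐  A1Stmt (helper58, `exists_line_of_cubic`)
              +  A2Stmt  (helper16: `T` reduced, `det = ε` on inertia, `σ0`)
              +  CubicStmt (helper16 `s33_of_halves` ∘ N-half (helper99) ∘ O-half (helper63/42/34):
                            `(ρ τ - ε τ)(ρ σ - 1)(ρ σ' - 1) = 0` on `V` for `σ σ' τ ∈ I_p`)

PLACE (helper95: `Plumb66.Inertia.IA_le_DA`, `conj_mem_IA`, `O2Unram95.isOrdinaryAt_of_canonical`) is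
already on main and is used directly.

Conventions (the ones of Flat83/S32Main and Embed34): `hpT : (p : T) ∈ 𝔪_T`, the `ℤ_p`-structure of
`T` is `ES.J.PadicAlg8.padicToLocal p hpT`, the cyclotomic character is `ES.J.CycloChar8.cyclo p`,
`eps p hpT g = padicToLocal p hpT (cyclo p g)`; `I := Plumb66.Inertia.IA p`, `D := DA p`.
-/
import Mathlib
import Fermat.Prelude.Def_CuspForm_HeckeGaloisRepDatum
import Fermat.Prelude.Def_GaloisRep_LocalConditions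
import Fermat.Agent.ES.J.CycloChar8
import Fermat.Agent.ES.J.PadicAlg8
import Fermat.Agent.T1B.Plumb66.Inertia
import Fermat.Agent.S33P.O2Unram95.Global
import Fermat.Agent.S33P.Main68.Abstract

set_option autoImplicit false
set_option linter.unusedSectionVars false

noncomputable section

namespace Fermat.Agent.S33P.Main68

open Fermat.Agent.T1B.Plumb66.Inertia Fermat.Agent.ES.J.CycloChar8

local notation "GQ" => (AlgebraicClosure ℚ ≃ₐ[ℚ] AlgebraicClosure ℚ)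

/-! ### the character `ε` -/

section Eps

variable (p : ℕ) [Fact p.Prime] {T : Type} [CommRing T] [IsLocalRing T]
  [IsAdicComplete (IsLocalRing.maximalIdeal T) T]

/-- `ε = (ℤ_p → T) ∘ χ_cyc`. -/
def eps (hpT : (p : T) ∈ IsLocalRing.maximalIdeal T) (g : GQ) : T :=
  Fermat.Agent.ES.J.PadicAlg8.padicToLocal p hpT ((cyclo p g : ℤ_[p]ˣ) : ℤ_[p])

theorem eps_eq_algebraMap (hpT : (p : T) ∈ IsLocalRing.maximalIdeal T) (g : GQ) :
    letI : Algebra ℤ_[p] T := (Fermat.Agent.ES.J.PadicAlg8.padicToLocal p hpT).toAlgebra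
    eps p hpT g = algebraMap ℤ_[p] T ((cyclo p g : ℤ_[p]ˣ) : ℤ_[p]) := rfl

end Eps

/-- `(p : T) ∈ 𝔪_T` from `(p : 𝒪) ∈ 𝔪_𝒪` along a local homomorphism. -/
theorem natCast_mem_maximalIdeal' {𝒪 T : Type} [CommRing 𝒪] [IsLocalRing 𝒪] [CommRing T]
    [IsLocalRing T] [Algebra 𝒪 T] [IsLocalHom (algebraMap 𝒪 T)] {p : ℕ}
    (hp𝒪 : (p : 𝒪) ∈ IsLocalRing.maximalIdeal 𝒪) : (p : T) ∈ IsLocalRing.maximalIdeal T := by
  rw [IsLocalRing.mem_maximalIdeal] at hp𝒪 ⊢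
  intro hu
  apply hp𝒪
  have : IsUnit (algebraMap 𝒪 T (p : 𝒪)) := by rwa [map_natCast]
  exact isUnit_of_map_unit (algebraMap 𝒪 T) _ this

/-! ### the brick statements -/

/-- **A1** (helper58, brick 764): the cubic identity on inertia gives the ordinary line. -/
def A1Stmt : Prop :=
  ∀ {T : Type} [CommRing T] [IsLocalRing T] [IsNoetherianRing T] [IsReduced T]
    [IsAdicComplete (IsLocalRing.maximalIdeal T) T]
    {V : Type} [AddCommGroup V] [Module T V] [Module.Free T V] [Module.Finite T V]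
    (_hV : Module.finrank T V = 2) {G : Type} [Group G] (ρ : G →* Module.End T V)
    (I D : Subgroup G) (_hID : I ≤ D) (_hnorm : ∀ d ∈ D, ∀ σ ∈ I, d * σ * d⁻¹ ∈ I)
    (ε : G → T) (_hdet : ∀ σ ∈ I, LinearMap.det (ρ σ) = ε σ) {σ0 : G} (_h0 : σ0 ∈ I)
    (_hu : IsUnit (ε σ0 - 1))
    (_htr : LinearMap.trace T V (ρ σ0) - (ε σ0 + 1) ∈ IsLocalRing.maximalIdeal T)
    (_hcubic : ∀ σ ∈ I, ∀ σ' ∈ I, ∀ τ ∈ I, (ρ τ - ε τ • 1) * (ρ σ - 1) * (ρ σ' - 1) = 0),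
    ∃ L : Submodule T V, (∃ b : Module.Basis (Fin 2) T V, L = T ∙ b 0) ∧
      (∀ d ∈ D, ∀ v ∈ L, ρ d v ∈ L) ∧ ∀ σ ∈ I, ∀ v, ρ σ v - v ∈ L

variable {p : ℕ} {N : ℕ} [NeZero N] {S : Finset ℕ}
  {𝒪 : Type} [CommRing 𝒪] [IsDomain 𝒪] [IsDiscreteValuationRing 𝒪]
  [IsAdicComplete (IsLocalRing.maximalIdeal 𝒪) 𝒪]
  {θ : CuspForm.heckeAlgebra N 2 (↑S : Set ℕ) →+* IsLocalRing.ResidueField 𝒪}
  {T : Type} [CommRing T] [IsLocalRing T] [IsNoetherianRing T]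
  [IsAdicComplete (IsLocalRing.maximalIdeal T) T] [Algebra 𝒪 T] [IsLocalHom (algebraMap 𝒪 T)]
  [Module.Finite 𝒪 T] [Module.Free 𝒪 T]

/-- the A2' data for one datum `H` (helper16, brick 765 (a), (c), (d)). -/
def A2Data [Fact p.Prime] (H : CuspForm.HeckeGaloisRepDatum N (↑S : Set ℕ) 𝒪 θ T)
    (hpT : (p : T) ∈ IsLocalRing.maximalIdeal T) : Prop :=
  IsReduced T ∧
  (∀ σ : GQ, LinearMap.det (H.ρ.ρ σ) = eps p hpT σ) ∧
  ∃ σ0 ∈ IA p, IsUnit (eps p hpT σ0 - 1) ∧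
    LinearMap.trace T H.ρ.V (H.ρ.ρ σ0) - (eps p hpT σ0 + 1) ∈ IsLocalRing.maximalIdeal T

/-- the cubic identity on `V` for one datum `H` (output of `s33_of_halves`). -/
def CubicData [Fact p.Prime] (H : CuspForm.HeckeGaloisRepDatum N (↑S : Set ℕ) 𝒪 θ T)
    (hpT : (p : T) ∈ IsLocalRing.maximalIdeal T) : Prop :=
  CubicOn H.ρ.ρ (eps p hpT) (IA p)

/-- **Steps A1 + PLACE**: the cubic identity on `V` gives ordinarity at `p`. -/
theorem isOrdinaryAt_of_cubicData (hA1 : A1Stmt) [Fact p.Prime]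
    (H : CuspForm.HeckeGaloisRepDatum N (↑S : Set ℕ) 𝒪 θ T)
    (hpT : (p : T) ∈ IsLocalRing.maximalIdeal T) (hA2 : A2Data H hpT)
    (hcub : CubicData H hpT) : H.ρ.IsOrdinaryAt p := by
  obtain ⟨hred, hdet, σ0, h0, hu, htr⟩ := hA2
  have := hred
  apply Fermat.Agent.S33P.O2Unram95.isOrdinaryAt_of_canonical p H.ρ
  exact hA1 H.ρ.finrank_eq H.ρ.ρ (IA p) (DA p) (IA_le_DA p)
    (fun d hd σ hσ => conj_mem_IA p hd hσ) (eps p hpT) (fun σ _ => hdet σ) h0 hu htr hcub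

end Fermat.Agent.S33P.Main68

/-! ### the top statement, in the literal context of the frozen S33 -/

namespace Fermat.Agent.S33P.Main68

open Fermat.Agent.T1B.Plumb66.Inertia

/-- **A2'** in the literal S33 context (helper16). -/
def A2Stmt : Prop :=
  ∀ {p : ℕ} {N : ℕ} [NeZero N] {S : Finset ℕ}
    {𝒪 : Type} [CommRing 𝒪] [IsDomain 𝒪] [IsDiscreteValuationRing 𝒪]
    [IsAdicComplete (IsLocalRing.maximalIdeal 𝒪) 𝒪]
    {θ : CuspForm.heckeAlgebra N 2 (↑S : Set ℕ) →+* IsLocalRing.ResidueField 𝒪}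
    {T : Type} [CommRing T] [IsLocalRing T] [IsNoetherianRing T]
    [IsAdicComplete (IsLocalRing.maximalIdeal T) T] [Algebra 𝒪 T] [IsLocalHom (algebraMap 𝒪 T)]
    [Module.Finite 𝒪 T] [Module.Free 𝒪 T]
    [Finite (IsLocalRing.ResidueField 𝒪)] [CharZero 𝒪] [Fact p.Prime]
    (_hp2 : p ≠ 2) (_hp𝒪 : (p : 𝒪) ∈ IsLocalRing.maximalIdeal 𝒪) (_hN : p ∣ N ∧ ¬ p ^ 2 ∣ N)
    (_hNS : ∀ q : ℕ, q.Prime → q ∣ N → q ∈ S)
    (H : CuspForm.HeckeGaloisRepDatum N (↑S : Set ℕ) 𝒪 θ T)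
    (_hres : (GaloisRepAdic.ofResidualGaloisRep H.ρ.residual).IsOrdinaryAt p)
    (hpT : (p : T) ∈ IsLocalRing.maximalIdeal T), A2Data H hpT

/-- **The cubic identity** in the literal S33 context (`s33_of_halves`, helper16, fed by the
`p`-new half (helper99, N1–N3) and the `p`-old half (helper63, helper42, helper34)). -/
def CubicStmt : Prop :=
  ∀ {p : ℕ} {N : ℕ} [NeZero N] {S : Finset ℕ}
    {𝒪 : Type} [CommRing 𝒪] [IsDomain 𝒪] [IsDiscreteValuationRing 𝒪]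
    [IsAdicComplete (IsLocalRing.maximalIdeal 𝒪) 𝒪]
    {θ : CuspForm.heckeAlgebra N 2 (↑S : Set ℕ) →+* IsLocalRing.ResidueField 𝒪}
    {T : Type} [CommRing T] [IsLocalRing T] [IsNoetherianRing T]
    [IsAdicComplete (IsLocalRing.maximalIdeal T) T] [Algebra 𝒪 T] [IsLocalHom (algebraMap 𝒪 T)]
    [Module.Finite 𝒪 T] [Module.Free 𝒪 T]
    [Finite (IsLocalRing.ResidueField 𝒪)] [CharZero 𝒪] [Fact p.Prime]
    (_hp2 : p ≠ 2) (_hp𝒪 : (p : 𝒪) ∈ IsLocalRing.maximalIdeal 𝒪) (_hN : p ∣ N ∧ ¬ p ^ 2 ∣ N)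
    (_hNS : ∀ q : ℕ, q.Prime → q ∣ N → q ∈ S)
    (H : CuspForm.HeckeGaloisRepDatum N (↑S : Set ℕ) 𝒪 θ T)
    (_hres : (GaloisRepAdic.ofResidualGaloisRep H.ρ.residual).IsOrdinaryAt p)
    (hpT : (p : T) ∈ IsLocalRing.maximalIdeal T), CubicData H hpT

/-- **Frozen S33 from the bricks.** `Fermat/Agent/S33.lean` is then
`theorem result … := Fermat.Agent.S33P.Main68.s33_of_bricks hA1 hA2 hCub hp hp2 hp𝒪 hN hNS H hres`. -/
theorem s33_of_bricks (hA1 : A1Stmt) (hA2 : A2Stmt) (hCub : CubicStmt)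
    {p : ℕ} {N : ℕ} [NeZero N] {S : Finset ℕ}
    {𝒪 : Type} [CommRing 𝒪] [IsDomain 𝒪] [IsDiscreteValuationRing 𝒪]
    [IsAdicComplete (IsLocalRing.maximalIdeal 𝒪) 𝒪]
    {θ : CuspForm.heckeAlgebra N 2 (↑S : Set ℕ) →+* IsLocalRing.ResidueField 𝒪}
    {T : Type} [CommRing T] [IsLocalRing T] [IsNoetherianRing T]
    [IsAdicComplete (IsLocalRing.maximalIdeal T) T] [Algebra 𝒪 T] [IsLocalHom (algebraMap 𝒪 T)]
    [Module.Finite 𝒪 T] [Module.Free 𝒪 T]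
    [Finite (IsLocalRing.ResidueField 𝒪)] [CharZero 𝒪]
    (hp : p.Prime) (hp2 : p ≠ 2) (hp𝒪 : (p : 𝒪) ∈ IsLocalRing.maximalIdeal 𝒪)
    (hN : p ∣ N ∧ ¬ p ^ 2 ∣ N) (hNS : ∀ q : ℕ, q.Prime → q ∣ N → q ∈ S)
    (H : CuspForm.HeckeGaloisRepDatum N (↑S : Set ℕ) 𝒪 θ T)
    (hres : (GaloisRepAdic.ofResidualGaloisRep H.ρ.residual).IsOrdinaryAt p) :
    H.ρ.IsOrdinaryAt p := by
  have : Fact p.Prime := ⟨hp⟩
  have hpT : (p : T) ∈ IsLocalRing.maximalIdeal T := natCast_mem_maximalIdeal' hp𝒪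
  exact isOrdinaryAt_of_cubicData hA1 H hpT (hA2 hp2 hp𝒪 hN hNS H hres hpT)
    (hCub hp2 hp𝒪 hN hNS H hres hpT)

end Fermat.Agent.S33P.Main68
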