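/-
S33 programme, WIRING (helper68): `A1Stmt` is discharged by helper76's
`Alg76.exists_line_of_cubic_of_complete` (brick 764).
-/
import Mathlib
import Fermat.Agent.S33P.Alg76.Cubic
import Fermat.Agent.S33P.Main68.Top

set_option autoImplicit false

namespace Fermat.Agent.S33P.Main68

/-- **A1** (helper76). -/
theorem a1Stmt : A1Stmt := by
  intro T _ _ _ _ _ V _ _ _ _ hV G _ ρ I D _ hnorm ε hdet σ0 h0 hu htr hcubic
  exact Fermat.Agent.S33P.Alg76.exists_line_of_cubic_of_complete hV ρ I D hnorm ε hdet h0 hu htr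
    hcubic

end Fermat.Agent.S33P.Main68
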