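/-
S33 programme, WIRING (helper68): the ambient module `X = (T ⊗[Z] M)^r` of the embedding
`Ψ : V → X` and the objects fed to `Alg16.cubic_of_halves` (report 1307). Mathlib only.

`Z` a commutative ring (`ℤ_p`), `T` a `Z`-algebra, `M`, `M₂` `Z`-modules with actions
`ρM`, `ρ₂ : G → End_Z`, `β : M →ₗ[Z] M₂` equivariant.

* `piEnd f r`   : the `T`-endomorphism `(f ⊗ T)^r` of `(T ⊗ M)^r`;  `rhoX ρM r g := piEnd (ρM g) r`;
* `piMap β r`   : `(β ⊗ T)^r : (T ⊗ M)^r → (T ⊗ M₂)^r` (the map `B` of `cubic_of_halves`);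
* `piMap_rhoX`  : `B` is equivariant;
* `cubic_rhoX_apply` : `(ρX τ - ε τ)(ρX σ - 1)(ρX σ' - 1) x` computed componentwise as the base change of
  the cubic operator of `ρM`;
* `cubic_rhoX_eq_zero` : the hypothesis `hnew` of `cubic_of_halves` from the cubic identity on `ker β`;
* `raise`, `raise_injective`, `raise_equivariant` : composing `Ψ₀` with an injective equivariant
  `lvl : M₀ → M` (level raising), `T` flat over `Z`.
-/
import Mathlib

set_option autoImplicit false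

open TensorProduct

noncomputable section

namespace Fermat.Agent.S33P.Main68

variable {Z : Type*} [CommRing Z] {T : Type*} [CommRing T] [Algebra Z T]
  {M : Type*} [AddCommGroup M] [Module Z M] {M₂ : Type*} [AddCommGroup M₂] [Module Z M₂]
  {M₀ : Type*} [AddCommGroup M₀] [Module Z M₀]

/-- `(f ⊗ T)^r : (T ⊗ M)^r → (T ⊗ M₂)^r`. -/
def piMap (f : M →ₗ[Z] M₂) (r : ℕ) : (Fin r → T ⊗[Z] M) →ₗ[T] (Fin r → T ⊗[Z] M₂) :=
  (f.baseChange T).compLeft (Fin r)

@[simp] theorem piMap_apply (f : M →ₗ[Z] M₂) (r : ℕ) (x : Fin r → T ⊗[Z] M) (i : Fin r) :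
    piMap (T := T) f r x i = f.baseChange T (x i) := rfl

/-- `(f ⊗ T)^r` as an endomorphism. -/
def piEnd (f : Module.End Z M) (r : ℕ) : Module.End T (Fin r → T ⊗[Z] M) := piMap f r

@[simp] theorem piEnd_apply (f : Module.End Z M) (r : ℕ) (x : Fin r → T ⊗[Z] M) (i : Fin r) :
    piEnd (T := T) f r x i = f.baseChange T (x i) := rfl

theorem piMap_eq_zero_iff (f : M →ₗ[Z] M₂) (r : ℕ) (x : Fin r → T ⊗[Z] M) :
    piMap (T := T) f r x = 0 ↔ ∀ i, f.baseChange T (x i) = 0 := by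
  constructor
  · intro h i
    have := congrFun h i
    simpa using this
  · intro h
    funext i
    simpa using h i

variable {G : Type*}

/-- the action on `X = (T ⊗ M)^r`. -/
def rhoX (ρM : G → Module.End Z M) (r : ℕ) (g : G) : Module.End T (Fin r → T ⊗[Z] M) :=
  piEnd (ρM g) r

@[simp] theorem rhoX_apply (ρM : G → Module.End Z M) (r : ℕ) (g : G) (x : Fin r → T ⊗[Z] M)
    (i : Fin r) : rhoX (T := T) ρM r g x i = (ρM g).baseChange T (x i) := rfl

/-- `B = (β ⊗ T)^r` is equivariant. -/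
theorem piMap_rhoX (ρM : G → Module.End Z M) (ρ₂ : G → Module.End Z M₂) (β : M →ₗ[Z] M₂)
    (hβ : ∀ g m, β (ρM g m) = ρ₂ g (β m)) (r : ℕ) (g : G) (x : Fin r → T ⊗[Z] M) :
    piMap (T := T) β r (rhoX ρM r g x) = rhoX ρ₂ r g (piMap β r x) := by
  funext i
  rw [piMap_apply, rhoX_apply, rhoX_apply, piMap_apply, ← LinearMap.comp_apply,
    ← LinearMap.comp_apply, ← LinearMap.baseChange_comp, ← LinearMap.baseChange_comp]
  congr 2
  exact LinearMap.ext fun m => hβ g m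

/-- the cubic operator of an action `ρX` on `X = (T ⊗ M)^r` which is componentwise the base change
of `ρM` (e.g. `ρX = rhoX ρM r`), computed componentwise. -/
theorem cubic_rhoX_apply (ρM : G → Module.End Z M) (χ : G → Z) (ε : G → T)
    (hε : ∀ g, ε g = algebraMap Z T (χ g)) (r : ℕ)
    (ρX : G → Module.End T (Fin r → T ⊗[Z] M))
    (hρX : ∀ g x i, ρX g x i = (ρM g).baseChange T (x i))
    (σ σ' τ : G) (x : Fin r → T ⊗[Z] M) (i : Fin r) :
    ((ρX τ - ε τ • 1) ((ρX σ - 1) ((ρX σ' - 1) x))) i =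
      (((ρM τ - χ τ • 1) * (ρM σ - 1) * (ρM σ' - 1)).baseChange T) (x i) := by
  have e1 : ∀ (g : G) (y : Fin r → T ⊗[Z] M) (i : Fin r),
      ((ρX g - 1) y) i = ((ρM g - 1).baseChange T) (y i) := by
    intro g y i
    rw [LinearMap.sub_apply, Module.End.one_apply, Pi.sub_apply, hρX,
      LinearMap.baseChange_sub, LinearMap.sub_apply, Module.End.one_eq_id,
      LinearMap.baseChange_id, LinearMap.id_apply]
  have e2 : ∀ (g : G) (y : Fin r → T ⊗[Z] M) (i : Fin r),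
      ((ρX g - ε g • 1) y) i = ((ρM g - χ g • 1).baseChange T) (y i) := by
    intro g y i
    rw [LinearMap.sub_apply, LinearMap.smul_apply, Module.End.one_apply, Pi.sub_apply,
      Pi.smul_apply, hρX, LinearMap.baseChange_sub, LinearMap.sub_apply,
      LinearMap.baseChange_smul, LinearMap.smul_apply, Module.End.one_eq_id,
      LinearMap.baseChange_id, LinearMap.id_apply, hε, algebraMap_smul]
  rw [e2, e1, e1, Module.End.mul_eq_comp, Module.End.mul_eq_comp, LinearMap.baseChange_comp,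
    LinearMap.baseChange_comp, LinearMap.comp_apply, LinearMap.comp_apply]

/-- **`hnew` of `cubic_of_halves`**: if the cubic operator of `ρM` vanishes on `ker β` (in the
base-changed form provided by (S5) `baseChange_eq_zero_of_ker`), the cubic operator of `ρX`
vanishes on `ker B`, `B = piMap β r`. -/
theorem cubic_rhoX_eq_zero (ρM : G → Module.End Z M) (χ : G → Z) (ε : G → T)
    (hε : ∀ g, ε g = algebraMap Z T (χ g)) (β : M →ₗ[Z] M₂) (r : ℕ)
    (ρX : G → Module.End T (Fin r → T ⊗[Z] M))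
    (hρX : ∀ g x i, ρX g x i = (ρM g).baseChange T (x i)) (σ σ' τ : G)
    (hbc : ∀ y : T ⊗[Z] M, β.baseChange T y = 0 →
      (((ρM τ - χ τ • 1) * (ρM σ - 1) * (ρM σ' - 1)).baseChange T) y = 0)
    (x : Fin r → T ⊗[Z] M) (hx : piMap (T := T) β r x = 0) :
    (ρX τ - ε τ • 1) ((ρX σ - 1) ((ρX σ' - 1) x)) = 0 := by
  funext i
  rw [cubic_rhoX_apply ρM χ ε hε r ρX hρX, Pi.zero_apply]
  exact hbc _ ((piMap_eq_zero_iff β r x).mp hx i)

/-! ### level raising -/

/-- compose `Ψ₀ : V → (T ⊗ M₀)^r` with `(lvl ⊗ T)^r`. -/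
def raise {V : Type*} [AddCommGroup V] [Module T V] (lvl : M₀ →ₗ[Z] M) {r : ℕ}
    (Ψ₀ : V →ₗ[T] (Fin r → T ⊗[Z] M₀)) : V →ₗ[T] (Fin r → T ⊗[Z] M) :=
  (piMap lvl r).comp Ψ₀

theorem raise_apply {V : Type*} [AddCommGroup V] [Module T V] (lvl : M₀ →ₗ[Z] M) {r : ℕ}
    (Ψ₀ : V →ₗ[T] (Fin r → T ⊗[Z] M₀)) (v : V) (i : Fin r) :
    raise lvl Ψ₀ v i = lvl.baseChange T (Ψ₀ v i) := rfl

theorem raise_injective [Module.Flat Z T] {V : Type*} [AddCommGroup V] [Module T V]
    (lvl : M₀ →ₗ[Z] M) (hlvl : Function.Injective lvl) {r : ℕ}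
    (Ψ₀ : V →ₗ[T] (Fin r → T ⊗[Z] M₀)) (hΨ₀ : Function.Injective Ψ₀) :
    Function.Injective (raise lvl Ψ₀) := by
  have hbc : Function.Injective (lvl.baseChange T) :=
    Module.Flat.lTensor_preserves_injective_linearMap (M := T) lvl hlvl
  intro v w hvw
  apply hΨ₀
  funext i
  apply hbc
  have := congrFun hvw i
  rwa [raise_apply, raise_apply] at this

theorem raise_equivariant {V : Type*} [AddCommGroup V] [Module T V] (ρ : G → Module.End T V)
    (ρ₀ : G → Module.End Z M₀) (ρM : G → Module.End Z M) (lvl : M₀ →ₗ[Z] M)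
    (hlvl : ∀ g m, lvl (ρ₀ g m) = ρM g (lvl m)) {r : ℕ} (Ψ₀ : V →ₗ[T] (Fin r → T ⊗[Z] M₀))
    (hΨ₀ : ∀ g v i, Ψ₀ (ρ g v) i = (ρ₀ g).baseChange T (Ψ₀ v i)) (g : G) (v : V) (i : Fin r) :
    raise lvl Ψ₀ (ρ g v) i = (ρM g).baseChange T (raise lvl Ψ₀ v i) := by
  rw [raise_apply, raise_apply, hΨ₀, ← LinearMap.comp_apply, ← LinearMap.comp_apply,
    ← LinearMap.baseChange_comp, ← LinearMap.baseChange_comp]
  congr 2
  exact LinearMap.ext fun m => hlvl g m

end Fermat.Agent.S33P.Main68
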