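/-
S33 programme, WIRING (helper68): the abstract assembly of the two halves, Mathlib +
`Alg16/MinPrimes` (`IsAnnWitness`, `exists_ann_eq`) + `A4Abs61/Dichotomy` (`dichotomy`) +
`Coord79` (coordinates on `T ⊗ X`, flat plumbing) + `Main68/{Abstract,XSide}`.

* `eq_zero_of_forall_witness` : in a free module over a reduced noetherian ring, `x = 0` as soon as
  every minimal prime has an annihilator witness `a` with `a • x = 0`;
* `cubicOn_of_halves` : (twin of helper16's `Alg16.Assembly.cubic_of_halves`, for a subgroup `I`)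
  the cubic identity on `V` from `hnew` (cubic identity on `ker B ⊆ X`) and `hold` (quadratic
  identity on `aV` whenever `B ∘ Ψ` is injective on `aV`);
* `cubicOn_of_tate` : the same with `X = (T ⊗ M)^r`, `X' = (T ⊗ (M')^2)^r`, `B = (β ⊗ T)^r`,
  `Ψ = (lvl ⊗ T)^r ∘ Ψ₀`, where the hypotheses `hnew`, `hold` are now statements about the
  `Z`-modules `M` (= `Ta_p J₀(M'p)`), `M'` (= `Ta_p J₀(M')`) only:
    `hnew` : cubic identity on `ker β ⊆ M`                              (N-half, helper99/helper3),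
    `hold` : quadratic identity on `aV` from a `Z`-linear equivariant `Φ : V → (M')^κ` injective on
             `aV`                                                       (O-half, helper63/16/34).
-/
import Mathlib
import Fermat.Agent.S33P.Alg16.MinPrimes
import Fermat.Agent.S33P.A4Abs61.Dichotomy
import Fermat.Agent.S33P.Coord79.Coord
import Fermat.Agent.S33P.Coord79.Flat
import Fermat.Agent.S33P.Main68.Abstract
import Fermat.Agent.S33P.Main68.XSide

set_option autoImplicit false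

open TensorProduct

noncomputable section

namespace Fermat.Agent.S33P.Main68

open Fermat.Agent.S33P.Alg16.MinPrimes

/-! ### the assembly over the minimal primes -/

section Halves

variable {Z : Type*} [CommRing Z] {T : Type*} [CommRing T] [IsNoetherianRing T] [IsReduced T]
  [Algebra Z T] [Algebra.IsIntegral Z T]
  {V : Type*} [AddCommGroup V] [Module T V] [Module.Free T V]
  {G : Type*} [Group G] (ρ : G →* Module.End T V)
  {X X' : Type*} [AddCommGroup X] [Module T X] [AddCommGroup X'] [Module T X']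
  (ρX : G → Module.End T X) (ρX' : G → Module.End T X')

omit [Algebra Z T] [Algebra.IsIntegral Z T] [IsNoetherianRing T] in
/-- `x = 0` if every minimal prime has an annihilator witness killing `x`. -/
theorem eq_zero_of_forall_witness {x : V}
    (h : ∀ 𝔭 ∈ minimalPrimes T, ∃ a : T, IsAnnWitness 𝔭 a ∧ a • x = 0) : x = 0 := by
  set b := Module.Free.chooseBasis T V
  apply b.repr.injective
  rw [map_zero]
  ext j
  rw [Finsupp.zero_apply]
  apply eq_zero_of_forall_mul_eq_zero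
  intro 𝔭 h𝔭
  obtain ⟨a, ha, hax⟩ := h 𝔭 h𝔭
  refine ⟨a, ha, ?_⟩
  have h1 := congrArg (fun y => b.repr y j) hax
  simp only [map_smul, Finsupp.smul_apply, smul_eq_mul, map_zero, Finsupp.zero_apply] at h1
  rw [mul_comm]
  exact h1

/-- **The assembly** (twin of `Alg16.Assembly.cubic_of_halves`). -/
theorem cubicOn_of_halves (hspan : Submodule.span T (Set.range ρ) = ⊤)
    (Ψ : V →ₗ[T] X) (hΨ : Function.Injective Ψ) (hΨeq : ∀ g v, Ψ (ρ g v) = ρX g (Ψ v))
    (B : X →ₗ[T] X') (hBeq : ∀ g x, B (ρX g x) = ρX' g (B x))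
    (htf : ∀ z : Z, z ≠ 0 → ∀ x : X', algebraMap Z T z • x = 0 → x = 0)
    (I : Subgroup G) (ε : G → T)
    (hnew : ∀ σ ∈ I, ∀ σ' ∈ I, ∀ τ ∈ I, ∀ x : X, B x = 0 →
      (ρX τ - ε τ • 1) ((ρX σ - 1) ((ρX σ' - 1) x)) = 0)
    (hold : ∀ 𝔭 ∈ minimalPrimes T, ∀ a : T, IsAnnWitness 𝔭 a →
      (∀ v : V, B (Ψ (a • v)) = 0 → a • v = 0) →
      ∀ σ ∈ I, ∀ τ ∈ I, ∀ v : V, a • ((ρ τ - ε τ • 1) ((ρ σ - 1) v)) = 0) :
    CubicOn ρ ε I := by
  intro σ hσ σ' hσ' τ hτ
  refine LinearMap.ext fun v => ?_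
  rw [LinearMap.zero_apply, Module.End.mul_apply, Module.End.mul_apply]
  apply eq_zero_of_forall_witness (T := T)
  intro 𝔭 h𝔭
  obtain ⟨a, ha⟩ := exists_ann_eq h𝔭
  refine ⟨a, ha, ?_⟩
  have hprime : 𝔭.IsPrime := h𝔭.1.1
  have e1 : ∀ (g : G) (w : V), Ψ ((ρ g - 1) w) = (ρX g - 1) (Ψ w) := by
    intro g w
    rw [LinearMap.sub_apply, Module.End.one_apply, map_sub, hΨeq, LinearMap.sub_apply,
      Module.End.one_apply]
  have e2 : ∀ (g : G) (w : V), Ψ ((ρ g - ε g • 1) w) = (ρX g - ε g • 1) (Ψ w) := by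
    intro g w
    rw [LinearMap.sub_apply, LinearMap.smul_apply, Module.End.one_apply, map_sub, hΨeq, map_smul,
      LinearMap.sub_apply, LinearMap.smul_apply, Module.End.one_apply]
  rcases A4Abs61.dichotomy (Z := Z) ρ ρX' hspan (B ∘ₗ Ψ)
      (fun g v => by
        rw [LinearMap.comp_apply, LinearMap.comp_apply, hΨeq, hBeq]) htf 𝔭 a ha with h1 | h2
  · -- the `p`-new alternative
    apply hΨ
    rw [map_zero, ← map_smul, ← map_smul, ← map_smul, e2, e1, e1]
    exact hnew σ hσ σ' hσ' τ hτ _ (h1 v)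
  · -- the `p`-old alternative
    exact hold 𝔭 h𝔭 a ha h2 σ hσ τ hτ _

end Halves

/-! ### flattening `(Y^2)^n = Y^(2n)` -/

section Flatten

variable {Z : Type*} [CommRing Z] {Y : Type*} [AddCommGroup Y] [Module Z Y]

/-- `(Fin n → Fin 2 → Y) → (Fin (n * 2) → Y)`. -/
def flat2 (n : ℕ) : (Fin n → Fin 2 → Y) →ₗ[Z] (Fin (n * 2) → Y) :=
  LinearMap.pi fun k =>
    (LinearMap.proj (finProdFinEquiv.symm k).2 : (Fin 2 → Y) →ₗ[Z] Y) ∘ₗ
      (LinearMap.proj (finProdFinEquiv.symm k).1 : (Fin n → Fin 2 → Y) →ₗ[Z] (Fin 2 → Y))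

theorem flat2_apply (n : ℕ) (z : Fin n → Fin 2 → Y) (k : Fin (n * 2)) :
    flat2 (Z := Z) n z k = z (finProdFinEquiv.symm k).1 (finProdFinEquiv.symm k).2 := rfl

theorem flat2_eq_zero (n : ℕ) (z : Fin n → Fin 2 → Y) (h : flat2 (Z := Z) n z = 0) : z = 0 := by
  funext i j
  have := congrFun h (finProdFinEquiv (i, j))
  rw [flat2_apply, Equiv.symm_apply_apply] at this
  exact this

end Flatten

/-! ### the Tate-module form -/

section Tate

variable {Z : Type*} [CommRing Z] [Nontrivial Z] {T : Type*} [CommRing T] [IsNoetherianRing T]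
  [IsReduced T] [Algebra Z T] [Module.Finite Z T] [Module.Free Z T]
  {V : Type*} [AddCommGroup V] [Module T V] [Module.Free T V] [Module Z V] [IsScalarTower Z T V]
  {G : Type*} [Group G] (ρ : G →* Module.End T V)
  {M₀ M M' : Type*} [AddCommGroup M₀] [Module Z M₀] [AddCommGroup M] [Module Z M]
  [AddCommGroup M'] [Module Z M']
  (ρ₀ : G → Module.End Z M₀) (ρM : G → Module.End Z M) (ρM' : G → Module.End Z M')

/-- the componentwise action on `M' × M' = (Fin 2 → M')`. -/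
def rhoFin2 (g : G) : Module.End Z (Fin 2 → M') := (ρM' g).compLeft (Fin 2)

omit [Nontrivial Z] [IsNoetherianRing T] [IsReduced T] [Module.Finite Z T] in
/-- `(T ⊗ Y)^r` is `Z`-torsion free if `Y` is (`T` free over `Z`). -/
theorem torsionFree_pi_tensor {Y : Type*} [AddCommGroup Y] [Module Z Y]
    (htf : ∀ z : Z, z ≠ 0 → ∀ y : Y, z • y = 0 → y = 0) (r : ℕ) (z : Z) (hz : z ≠ 0)
    (x : Fin r → T ⊗[Z] Y) (hx : algebraMap Z T z • x = 0) : x = 0 := by
  funext i
  rw [Pi.zero_apply]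
  apply Coord79.eq_zero_of_coord (Module.Free.chooseBasis Z T)
  intro j
  apply htf z hz
  rw [← map_smul, ← algebraMap_smul T z (x i)]
  have := congrFun hx i
  rw [Pi.smul_apply, Pi.zero_apply] at this
  rw [this, map_zero]

/-- **The cubic identity on `V` from the two halves, Tate-module form.** -/
theorem cubicOn_of_tate (hspan : Submodule.span T (Set.range ρ) = ⊤)
    (I : Subgroup G) (χ : G → Z) (ε : G → T) (hε : ∀ g, ε g = algebraMap Z T (χ g))
    (lvl : M₀ →ₗ[Z] M) (hlvl : Function.Injective lvl)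
    (hlvleq : ∀ g m, lvl (ρ₀ g m) = ρM g (lvl m))
    (β : M →ₗ[Z] (Fin 2 → M')) (hβ : ∀ g m i, β (ρM g m) i = ρM' g (β m i))
    (htf : ∀ z : Z, z ≠ 0 → ∀ y : M', z • y = 0 → y = 0)
    {r : ℕ} (Ψ₀ : V →ₗ[T] (Fin r → T ⊗[Z] M₀)) (hΨ₀ : Function.Injective Ψ₀)
    (hΨ₀eq : ∀ g v i, Ψ₀ (ρ g v) i = (ρ₀ g).baseChange T (Ψ₀ v i))
    (hnew : ∀ σ ∈ I, ∀ σ' ∈ I, ∀ τ ∈ I, ∀ x : M, β x = 0 →
      (ρM τ - χ τ • 1) ((ρM σ - 1) ((ρM σ' - 1) x)) = 0)
    (hold : ∀ 𝔭 ∈ minimalPrimes T, ∀ a : T, IsAnnWitness 𝔭 a →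
      ∀ (κ : ℕ) (Φ : V →ₗ[Z] (Fin κ → M')),
        (∀ g v i, Φ (ρ g v) i = ρM' g (Φ v i)) → (∀ v : V, Φ (a • v) = 0 → a • v = 0) →
        ∀ σ ∈ I, ∀ τ ∈ I, ∀ v : V, a • ((ρ τ - ε τ • 1) ((ρ σ - 1) v)) = 0) :
    CubicOn ρ ε I := by
  have hint : Algebra.IsIntegral Z T := Algebra.IsIntegral.of_finite Z T
  -- the objects
  set Ψ : V →ₗ[T] (Fin r → T ⊗[Z] M) := raise lvl Ψ₀ with hΨdef
  have hΨ : Function.Injective Ψ := raise_injective lvl hlvl Ψ₀ hΨ₀
  have hΨeq : ∀ g v i, Ψ (ρ g v) i = (ρM g).baseChange T (Ψ v i) :=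
    raise_equivariant (fun g => ρ g) ρ₀ ρM lvl hlvleq Ψ₀ hΨ₀eq
  have hβ' : ∀ g m, β (ρM g m) = rhoFin2 ρM' g (β m) := fun g m => funext fun i => hβ g m i
  refine cubicOn_of_halves (Z := Z) ρ (rhoX ρM r) (rhoX (rhoFin2 ρM') r) hspan Ψ hΨ
    (fun g v => funext fun i => hΨeq g v i) (piMap β r)
    (fun g x => piMap_rhoX ρM (rhoFin2 ρM') β hβ' r g x) ?_ I ε ?_ ?_
  · -- torsion-freeness of `X'`
    refine torsionFree_pi_tensor ?_ r
    intro z hz y hy
    funext i
    have := congrFun hy i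
    rw [Pi.smul_apply, Pi.zero_apply] at this
    exact htf z hz _ this
  · -- `hnew`
    intro σ hσ σ' hσ' τ hτ x hx
    refine cubic_rhoX_eq_zero ρM χ ε hε β r (rhoX ρM r) (fun _ _ _ => rfl) σ σ' τ ?_ x hx
    intro y hy
    rw [Coord79.baseChange_eq_zero_iff] at hy
    refine Coord79.baseChange_eq_zero_of_mem_tensorSub (LinearMap.ker β) _ ?_ hy
    intro k hk
    rw [Module.End.mul_apply, Module.End.mul_apply]
    exact hnew σ hσ σ' hσ' τ hτ k (LinearMap.mem_ker.mp hk)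
  · -- `hold`
    intro 𝔭 h𝔭 a ha hinj
    set d := Module.finrank Z T
    set bd : Module.Basis (Fin d) Z T := Module.finBasis Z T
    let Φ₁ : V →ₗ[Z] (Fin (r * d) → Fin 2 → M') :=
      (Coord79.coordPi (X := Fin 2 → M') bd r).toLinearMap ∘ₗ
        ((piMap β r ∘ₗ Ψ).restrictScalars Z)
    let Φ : V →ₗ[Z] (Fin (r * d * 2) → M') := flat2 (r * d) ∘ₗ Φ₁
    have hΦ₁ : ∀ g v, Φ₁ (ρ g v) = fun k => rhoFin2 ρM' g (Φ₁ v k) := by
      intro g v
      show Coord79.coordPi bd r (piMap β r (Ψ (ρ g v))) = _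
      have e : piMap (T := T) β r (Ψ (ρ g v)) =
          fun i => (rhoFin2 ρM' g).baseChange T (piMap β r (Ψ v) i) := by
        have e0 : Ψ (ρ g v) = rhoX ρM r g (Ψ v) := funext fun i => hΨeq g v i
        rw [e0, piMap_rhoX ρM (rhoFin2 ρM') β hβ' r g]
        rfl
      rw [e, Coord79.coordPi_baseChange]
      rfl
    refine hold 𝔭 h𝔭 a ha (r * d * 2) Φ ?_ ?_
    · intro g v k
      show Φ₁ (ρ g v) _ _ = ρM' g (Φ₁ v _ _)
      rw [hΦ₁]
      rfl
    · intro v hv
      apply hinj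
      have h1 : Φ₁ (a • v) = 0 := flat2_eq_zero (Z := Z) _ _ hv
      exact (Coord79.coordPi (X := Fin 2 → M') bd r).injective (by rw [map_zero]; exact h1)

end Tate

end Fermat.Agent.S33P.Main68
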