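/-
S33 programme, WIRING (helper68): the CONCRETE plug of `Main68/Halves.cubicOn_of_tate`:

  `Z = ℤ_p`, `M₀ = Ta_p J₀(N)`, `M = Ta_p J₀(M' p)`, `M' = Ta_p J₀(M')`,
  `lvl = Lvl61.lvlMap` (`N ∣ M' p`), `β = Lvl61.betaFin p M'` (the two degeneracy maps),

where `M'` is the auxiliary level with `4 ∣ M'`, `p ∤ M'`, `N ∣ M' p` (`exists_level`).

* `NewStmt`  : the `p`-new half, a statement about Tate modules of modular Jacobians only
  (N1–N3 of helper99 + N2 of helper3): the cubic identity on `ker β_* ⊆ Ta_p J₀(M' p)` for inertia;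
* `cubicOn_concrete` : for `T` a reduced noetherian finite free `ℤ_p`-algebra, `V` free over `T`,
  `ρ : G_ℚ → GL(V)` spanning `End_T V`, `Ψ₀ : V ↪ (T ⊗ Ta_p J₀(N))^r` equivariant (helper83),
  `NewStmt`, and the `p`-old half `hold` (helper63/16/34) give the cubic identity on `V`.

Everything is stated with `TateModule13.TateModule p (JZero _)` and `TateModule13.rho`
(`TJ` / `rhoT` of `ES/J/TateJZero13` unfold to these by `rfl`).
-/
import Mathlib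
import Fermat.Agent.ES.J.TateModule13
import Fermat.Agent.ES.J.CycloChar8
import Fermat.Agent.T1B.Plumb66.Inertia
import Fermat.Agent.S33P.Lvl61.Main
import Fermat.Agent.S33P.Lvl61.Beta
import Fermat.Agent.S33P.Main68.Halves

set_option autoImplicit false

open TensorProduct AlgebraicCurve ModularCurve

noncomputable section

namespace Fermat.Agent.S33P.Main68

open Fermat.Agent.ES.J.TateModule13 Fermat.Agent.ES.J.CycloChar8
  Fermat.Agent.T1B.Plumb66.Inertia Fermat.Agent.S33P.Lvl61 Fermat.Agent.S33P.Alg16.MinPrimes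

local notation "GQ" => (AlgebraicClosure ℚ ≃ₐ[ℚ] AlgebraicClosure ℚ)

/-- **the auxiliary level**: for `p` odd with `p ∥ N` there is `M'` with `4 ∣ M'`, `p ∤ M'` and
`N ∣ M' p`. -/
theorem exists_level {p N : ℕ} (hp : p.Prime) (hp2 : p ≠ 2) (hN0 : N ≠ 0)
    (hN : p ∣ N ∧ ¬ p ^ 2 ∣ N) : ∃ M' : ℕ, M' ≠ 0 ∧ 4 ∣ M' ∧ ¬ p ∣ M' ∧ N ∣ M' * p := by
  obtain ⟨k, rfl⟩ := hN.1
  have hk0 : k ≠ 0 := by
    rintro rfl
    exact hN0 (mul_zero p)
  have hpk : ¬ p ∣ k := by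
    intro h
    apply hN.2
    rw [pow_two]
    exact Nat.mul_dvd_mul_left p h
  have hp4 : ¬ p ∣ 4 := by
    intro h
    have h2 : p ∣ 2 ^ 2 := by norm_num; exact h
    have := (Nat.prime_dvd_prime_iff_eq hp Nat.prime_two).mp (hp.dvd_of_dvd_pow h2)
    exact hp2 this
  refine ⟨4 * k, Nat.mul_ne_zero (by norm_num) hk0, Dvd.intro k rfl, ?_, ?_⟩
  · intro h
    rcases (Nat.Prime.dvd_mul hp).mp h with h | h
    · exact hp4 h
    · exact hpk h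
  · exact ⟨4, by ring⟩

/-- **The `p`-new half** (N1–N3, helper99; N2, helper3): the cubic identity for inertia on
`ker β_* ⊆ Ta_p J₀(M' p)`, `β_* = (π₁, π₂)_*`, for `p` odd, `4 ∣ M'`, `p ∤ M'`. -/
def NewStmt : Prop :=
  ∀ {p : ℕ} [Fact p.Prime] (_hp2 : p ≠ 2) (M' : ℕ) [NeZero M'] [NeZero p] (_h4 : 4 ∣ M')
    (_hpM : ¬ p ∣ M'),
    ∀ σ ∈ IA p, ∀ σ' ∈ IA p, ∀ τ ∈ IA p, ∀ x : TateModule p (JZero (M' * p)),
      betaFin p M' x = 0 →
      (rho p (JZero (M' * p)) τ - ((cyclo p τ : ℤ_[p]ˣ) : ℤ_[p]) • 1)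
        ((rho p (JZero (M' * p)) σ - 1) ((rho p (JZero (M' * p)) σ' - 1) x)) = 0

/-- **The cubic identity on `V`, concrete form.** -/
theorem cubicOn_concrete (hnew : NewStmt) {p : ℕ} [hp : Fact p.Prime] (hp2 : p ≠ 2) {N : ℕ}
    [NeZero N] (hN : p ∣ N ∧ ¬ p ^ 2 ∣ N)
    {T : Type} [CommRing T] [IsNoetherianRing T] [IsReduced T] [Algebra ℤ_[p] T]
    [Module.Finite ℤ_[p] T] [Module.Free ℤ_[p] T]
    {V : Type} [AddCommGroup V] [Module T V] [Module.Free T V] [Module ℤ_[p] V]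
    [IsScalarTower ℤ_[p] T V]
    (ρ : GQ →* Module.End T V) (hspan : Submodule.span T (Set.range ρ) = ⊤)
    (ε : GQ → T) (hε : ∀ g, ε g = algebraMap ℤ_[p] T ((cyclo p g : ℤ_[p]ˣ) : ℤ_[p]))
    {r : ℕ} (Ψ₀ : V →ₗ[T] (Fin r → T ⊗[ℤ_[p]] TateModule p (JZero N)))
    (hΨ₀ : Function.Injective Ψ₀)
    (hΨ₀eq : ∀ g v i, Ψ₀ (ρ g v) i = (rho p (JZero N) g).baseChange T (Ψ₀ v i))
    (hold : ∀ (M' : ℕ) [NeZero M'], ¬ p ∣ M' → ∀ 𝔭 ∈ minimalPrimes T, ∀ a : T,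
      IsAnnWitness 𝔭 a →
      ∀ (κ : ℕ) (Φ : V →ₗ[ℤ_[p]] (Fin κ → TateModule p (JZero M'))),
        (∀ g v i, Φ (ρ g v) i = rho p (JZero M') g (Φ v i)) →
        (∀ v : V, Φ (a • v) = 0 → a • v = 0) →
        ∀ σ ∈ IA p, ∀ τ ∈ IA p, ∀ v : V, a • ((ρ τ - ε τ • 1) ((ρ σ - 1) v)) = 0) :
    CubicOn ρ ε (IA p) := by
  obtain ⟨M', hM0, h4, hpM, hdvd⟩ := exists_level hp.out hp2 (NeZero.ne N) hN
  have : NeZero M' := ⟨hM0⟩
  have : NeZero p := ⟨hp.out.ne_zero⟩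
  exact cubicOn_of_tate ρ (fun g => rho p (JZero N) g) (fun g => rho p (JZero (M' * p)) g)
    (fun g => rho p (JZero M') g) hspan (IA p) (fun g => ((cyclo p g : ℤ_[p]ˣ) : ℤ_[p])) ε hε
    (lvlMap p hdvd) (lvlMap_injective hdvd) (fun g m => lvlMap_rho hdvd g m)
    (betaFin p M') (fun g m i => betaFin_rho g m i)
    (fun z hz y hy => torsionFree_tate z hz y hy) Ψ₀ hΨ₀ hΨ₀eq
    (fun σ hσ σ' hσ' τ hτ x hx => hnew hp2 M' h4 hpM σ hσ σ' hσ' τ hτ x hx)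
    (hold M' hpM)

end Fermat.Agent.S33P.Main68
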