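/-
S33 programme, WIRING (helper68): `det ρ = algebraMap (χ_cyc)` gives helper95's `DetCycloModMax`
(the hypothesis `hc` of `O2Unram95.exists_sigma0` and of helper63's `Red63.quad_of_embedding_adic`).
-/
import Mathlib
import Fermat.Agent.ES.J.CycloChar8
import Fermat.Agent.S33P.O2Unram95.Sigma0

set_option autoImplicit false

noncomputable section

namespace Fermat.Agent.S33P.Main68

open Fermat.Agent.ES.J.CycloChar8 Fermat.Agent.S33P.O2Unram95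

local notation "GQ" => (AlgebraicClosure ℚ ≃ₐ[ℚ] AlgebraicClosure ℚ)

/-- if `σ` acts on `μ_p` by `μ ↦ μ^a`, then `χ_cyc(σ) ≡ a mod p`. -/
theorem cyclo_sub_natCast_mem {p : ℕ} [Fact p.Prime] (σ : GQ) (a : ℕ)
    (ha : ∀ μ : AlgebraicClosure ℚ, μ ^ p = 1 → σ μ = μ ^ a) :
    ∃ c : ℤ_[p], ((cyclo p σ : ℤ_[p]ˣ) : ℤ_[p]) - (a : ℤ_[p]) = c * (p : ℤ_[p]) := by
  obtain ⟨ζ, hζ⟩ := exists_primitiveRoot p 1
  have h1 : σ ζ = ζ ^ a := ha ζ (by
    have := hζ.pow_eq_one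
    rwa [pow_one] at this)
  have h2 := toZModPow_cyclo p hζ h1
  have h3 : ((cyclo p σ : ℤ_[p]ˣ) : ℤ_[p]) - (a : ℤ_[p]) ∈
      RingHom.ker (PadicInt.toZModPow (p := p) 1) := by
    rw [RingHom.mem_ker, map_sub, h2, map_natCast, sub_self]
  rw [PadicInt.ker_toZModPow] at h3
  obtain ⟨c, hc⟩ := Ideal.mem_span_singleton'.mp h3
  exact ⟨c, by rw [← hc, pow_one]⟩

/-- **`DetCycloModMax` from `det ρ = χ_cyc`.** -/
theorem detCycloModMax_of_cyclo {p : ℕ} [Fact p.Prime] {A : Type} [CommRing A] [IsLocalRing A]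
    [Algebra ℤ_[p] A] (hpA : (p : A) ∈ IsLocalRing.maximalIdeal A) (ρ : GaloisRepAdic A)
    (hdet : ∀ g : GQ, LinearMap.det (ρ.ρ g) =
      algebraMap ℤ_[p] A ((cyclo p g : ℤ_[p]ˣ) : ℤ_[p])) : DetCycloModMax p ρ := by
  intro σ a ha
  obtain ⟨c, hc⟩ := cyclo_sub_natCast_mem σ a ha
  have h : LinearMap.det (ρ.ρ σ) - (a : A) = algebraMap ℤ_[p] A c * (p : A) := by
    rw [hdet, ← map_natCast (algebraMap ℤ_[p] A) a, ← map_sub, hc, map_mul, map_natCast]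
  rw [h]
  exact Ideal.mul_mem_left _ _ hpA

end Fermat.Agent.S33P.Main68
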