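/-
S33 programme, WIRING (helper68): **`CubicStmt`** (the cubic identity on `V` in the literal context
of the frozen S33) from

* `hnew : NewStmt`                      — the `p`-new half (N1–N3 helper99, N2 helper3),
* `h19  : Flat44.S19FlatTarget`         — S19 in intrinsic form (discharged in `S33.lean` by
                                           `FlatS19_34.s19FlatTarget`, helper34),

with everything else plugged: `Embed83.exists_tate_embedding_T`, `span_rho_eq_top`, `det_eq_cyclo`
(helper83), `Alg16.Concrete.isReduced_T` (helper16), `Flat83.PadicFinite.finite_free`,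
`Red63.quad_of_embedding_adic` (helper63; σ0 / EIGEN / hres-form inside), `Main68.cubicOn_concrete`.
-/
import Mathlib
import Fermat.Agent.Flat44.S19Target
import Fermat.Agent.S33P.FlatS19_34.Core
import Fermat.Agent.S33P.Embed83.DetLvl
import Fermat.Agent.S33P.Alg16.Concrete
import Fermat.Agent.S33P.Red63.OldHalf
import Fermat.Agent.S33P.Main68.Top
import Fermat.Agent.S33P.Main68.Concrete
import Fermat.Agent.S33P.Main68.DetCyclo

set_option autoImplicit false
set_option linter.unusedSectionVars false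
set_option linter.overlappingInstances false
set_option linter.style.haveILetI false
set_option synthInstance.maxHeartbeats 400000
set_option maxHeartbeats 1000000

open AlgebraicCurve ModularCurve CuspForm TensorProduct

noncomputable section

namespace Fermat.Agent.S33P.Main68

open Fermat.Agent.ES.J.TateModule13 Fermat.Agent.ES.J.CycloChar8
  Fermat.Agent.T1B.Plumb66.Inertia Fermat.Agent.S33P.Alg16.MinPrimes

local notation "GQ" => (AlgebraicClosure ℚ ≃ₐ[ℚ] AlgebraicClosure ℚ)

/-- **`CubicStmt`** from the `p`-new half and S19. -/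
theorem cubicStmt_of (hnew : NewStmt) (h19 : Fermat.Agent.Flat44.S19FlatTarget) : CubicStmt := by
  intro p N _ S 𝒪 _ _ _ _ θ T _ _ _ _ _ _ _ _ _ _ hpF hp2 hp𝒪 hN hNS H hres hpT
  letI algT' : Algebra ℤ_[p] T := Fermat.Agent.S33P.Embed83.algT (p := p) (T := T) hpT
  have hpS : p ∈ S := hNS p hpF.out hN.1
  obtain ⟨hfin, hfree⟩ := Fermat.Agent.Flat83.PadicFinite.finite_free p 𝒪 T hpT
  have hred : IsReduced T := Fermat.Agent.S33P.Alg16.Concrete.isReduced_T hNS H
  letI modV : Module ℤ_[p] H.ρ.V := Module.compHom _ (algebraMap ℤ_[p] T)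
  haveI : IsScalarTower ℤ_[p] T H.ρ.V := IsScalarTower.of_algebraMap_smul fun _ _ => rfl
  obtain ⟨r, Ψ₀, hΨ₀, hΨ₀eq⟩ :=
    Fermat.Agent.S33P.Embed83.exists_tate_embedding_T hp2 hp𝒪 hpS hNS H
  have hdet := Fermat.Agent.S33P.Embed83.det_eq_cyclo hpT hpS hNS H
  refine cubicOn_concrete hnew hp2 hN H.ρ.ρ (Fermat.Agent.S33P.Embed83.span_rho_eq_top H)
    (eps p hpT) (fun g => rfl) Ψ₀ hΨ₀ hΨ₀eq ?_
  intro M' _ hpM 𝔭 _ a ha κ Φ hΦ hinj
  haveI : Finite {y : JZero M' // p • y = 0} :=
    Fermat.Agent.S33P.FlatS19_34.Core.finite_pTorsion M'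
  exact Fermat.Agent.S33P.Red63.quad_of_embedding_adic hp2 hpT H.ρ (eps p hpT) hdet
    (detCycloModMax_of_cyclo hpT H.ρ hdet) hres 𝔭 a ha.2 (fun n => Fermat.Agent.S33P.FlatS19_34.Core.hasFlatModel_torsion h19 M' hpM n) Φ hΦ hinj

end Fermat.Agent.S33P.Main68
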