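/-
S33 programme, WIRING (helper68): the `p`-new half `NewStmt` of `Main68/Concrete` from helper99's
N1 + N3 (`Geo99/TatePack.cubic_on_kerB_of_localGeomTate`) at the two degeneracy maps
`π₁ = piOne M' p`, `π₂ = piTwo M' p : J₀(M' p) → J₀(M')` of `T1B/Degen21/Level`:

* `cubic_of_localGeomTate` : one `LocalGeomTate p (M' p) M' π₁ π₂` gives the cubic identity on
  `ker (Lvl61.betaFin p M')`;
* `newStmt_of_localGeomTate` : `NewStmt` from the N2 theorem (helper3), in `Nonempty` form.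
-/
import Mathlib
import Fermat.Agent.S33P.Geo99.TatePack
import Fermat.Agent.S33P.Main68.Concrete

set_option autoImplicit false

open AlgebraicCurve ModularCurve

noncomputable section

namespace Fermat.Agent.S33P.Main68

open Fermat.Agent.ES.J.TateModule13 Fermat.Agent.ES.J.CycloChar8
  Fermat.Agent.T1B.Plumb66.Inertia Fermat.Agent.S33P.Lvl61 Fermat.Agent.S33P.Geo99
  Fermat.Agent.T1B.Degen21.Level

local notation "GQ" => (AlgebraicClosure ℚ ≃ₐ[ℚ] AlgebraicClosure ℚ)

universe uA uE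

/-- **N1 + N3 at the degeneracy maps**: the cubic identity on `ker β_*`. -/
theorem cubic_of_localGeomTate {p : ℕ} [hp : Fact p.Prime] (M' : ℕ) [NeZero M'] [NeZero p]
    (G : LocalGeomTate.{uA, uE} p (M' * p) M' (piOne M' p hp.out) (piTwo M' p hp.out)) :
    ∀ σ ∈ IA p, ∀ σ' ∈ IA p, ∀ τ ∈ IA p, ∀ x : TateModule p (JZero (M' * p)),
      betaFin p M' x = 0 →
      (rho p (JZero (M' * p)) τ - ((cyclo p τ : ℤ_[p]ˣ) : ℤ_[p]) • 1)
        ((rho p (JZero (M' * p)) σ - 1) ((rho p (JZero (M' * p)) σ' - 1) x)) = 0 := by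
  intro σ hσ σ' hσ' τ hτ x hx
  have hx' : x ∈ kerB p (piOne M' p hp.out) (piTwo M' p hp.out) := by
    rw [mem_kerB]
    exact (betaT_eq_zero_iff x).mp ((betaFin_eq_zero_iff x).mp hx)
  exact cubic_on_kerB_of_localGeomTate G
    (fun g y hy => by rw [piOne_smul, hy]; exact smul_zero (A := JZero M') g)
    (fun g y hy => by rw [piTwo_smul, hy]; exact smul_zero (A := JZero M') g) hσ hσ' hτ x hx'

/-- **`NewStmt` from N2** (`Nonempty` form). -/
theorem newStmt_of_localGeomTate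
    (hN2 : ∀ {p : ℕ} [hp : Fact p.Prime] (_ : p ≠ 2) (M' : ℕ) [NeZero M'] [NeZero p]
      (_ : 4 ∣ M') (_ : ¬ p ∣ M'),
      Nonempty (LocalGeomTate.{uA, uE} p (M' * p) M' (piOne M' p hp.out) (piTwo M' p hp.out))) :
    NewStmt := by
  intro p _ hp2 M' _ _ h4 hpM
  obtain ⟨G⟩ := hN2 hp2 M' h4 hpM
  exact cubic_of_localGeomTate M' G

end Fermat.Agent.S33P.Main68
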